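import Mathlib
import Fermat.Prelude.Def_ModularCurve_ReductionModL
import Fermat.Agent.S18.GaussFromH
import Fermat.Agent.S18.GaussFromHBar
import Fermat.Agent.S18.ResidueBasics
import Fermat.Agent.S18.A.PrincipalDivisors
import Fermat.Agent.S18.A.Hurwitz
import Fermat.Agent.S18.B.FkBasics
import Fermat.Agent.S18.B.SeparableFk
import Fermat.Agent.S37.Deuring.Core
import Fermat.Agent.S37.Deuring.FundIneq

/-!
# PROJECT I (S37), slice I-1Z (hypotheses first): `ReductionInputsAlong` from Deuring's theorem

The frozen predicate `ModularCurve.ReductionInputsAlong A π N` asks for a map of places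
`r : Place L FL → Place k Fk` which preserves degrees and is compatible with the divisors of the
integral functions with nonzero reduction, and for the fact that the principal divisors of `FL`
are generated by the divisors of such functions.  Here
`FL = laurentBaseChange L (modularFunctionFieldFull N)` and `Fk = modularFunctionFieldFullC k N`.

We prove it from

* `hrep : GaussFromH.HasRep A π N` (every nonzero function is `c · a / b` with `c` a constant and
  `a`, `b` integral with nonzero reduction), which builds the Gauss valuation ring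
  `OwV A π N hrep` and its reduction map `redV A π N hrep`;
* a Gauss datum `G : Deuring.Core.GaussDatum A π FL Fk` whose valuation ring and reduction map are
  those of `hrep` (`datumOfRep hrep hπs hπ` is the canonical one);
* `H : Deuring.Core.Hyp G gL gk` (Riemann's theorem on both sides, `gL ≤ gk`, (OB), (FI)).

Main statements:

* `datumOfRep hrep hπs hπ : GaussDatum A π FL Fk`, with `datumOfRep_red_surjective`;
* `principalGeneratedByIntegral_of_hasRep hrep : PrincipalGeneratedByIntegral A π N`
  (the converse of `GaussFromH.hasRep_of_gen`);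
* `isPlaceReductionAlong_of_hyp hrep G hO hred H : IsPlaceReductionAlong A π N (placeMap H)`;
* `reductionInputsAlong_of_hyp`, `reductionInputsAlong_of_datum`, `reductionInputsAlong_of_ob`
  (the last one discharges (FI) through `Deuring.FundIneq.fi`);
* `datumModL hrep`, `reductionInputsModL_of_hyp`, `reductionInputsModL_of_ob`,
  `reductionInputsModL_of_ob'` : the instance `L = AlgebraicClosure ℚ`, `π = residue A`; the last
  one only asks for `HasRep`, `(OB)` and the inequality of genera.
-/

set_option autoImplicit false
set_option linter.unusedSectionVars false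
set_option linter.style.haveILetI false

noncomputable section

namespace Fermat.Agent.S37.ReductionInputs

open HahnSeries IntermediateField AlgebraicCurve ModularCurve
open Fermat.Agent.S18.GaussFromH Fermat.Agent.S18.NonSpecial Fermat.Agent.S37.Deuring.Core

section General

variable {L : Type*} [Field L] [Algebra ℚ L] {A : ValuationSubring L}
variable {k : Type*} [Field k] {π : A →+* k} {N : ℕ}

/-! ### The canonical Gauss datum of a representation hypothesis -/

/-- The Gauss datum attached to `hrep : HasRep A π N`: valuation ring `OwV`, reduction `redV`. -/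
def datumOfRep (hrep : HasRep A π N) (hπs : Function.Surjective π)
    (hπ : ∀ a : A, ¬ IsUnit a → π a = 0) :
    GaussDatum A π ↥(laurentBaseChange L (modularFunctionFieldFull N))
      ↥(modularFunctionFieldFullC k N) where
  O := OwV A π N hrep
  red := redV A π N hrep
  pi_surjective := hπs
  algebraMap_mem := algebraMap_mem_OwV hrep
  red_algebraMap := redV_algebraMap hrep
  red_eq_zero_iff := redV_eq_zero_iff hrep
  exists_const_mul_unit := exists_const_mul_unit hrep
  mem_of_algebraMap_mem := fun c hc => mem_of_algebraMap_mem_Ow hπ c hc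

@[simp] theorem datumOfRep_O (hrep : HasRep A π N) (hπs : Function.Surjective π)
    (hπ : ∀ a : A, ¬ IsUnit a → π a = 0) :
    (datumOfRep hrep hπs hπ).O = OwV A π N hrep := rfl

@[simp] theorem datumOfRep_red (hrep : HasRep A π N) (hπs : Function.Surjective π)
    (hπ : ∀ a : A, ¬ IsUnit a → π a = 0) :
    (datumOfRep hrep hπs hπ).red = redV A π N hrep := rfl

theorem datumOfRep_red_surjective (hrep : HasRep A π N) (hπs : Function.Surjective π)
    (hπ : ∀ a : A, ¬ IsUnit a → π a = 0) :
    Function.Surjective (datumOfRep hrep hπs hπ).red :=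
  redV_surjective hrep hπs

/-! ### Principal divisors are generated by integral ones -/

/-- the divisor of an integral element with nonzero reduction is an integral principal divisor -/
theorem mem_integralPrincipalDivisors {a : ↥(intRing A π N)} (ha : red A π N a ≠ 0)
    {D : Divisor L ↥(laurentBaseChange L (modularFunctionFieldFull N))}
    (hD : ∀ P : Place L ↥(laurentBaseChange L (modularFunctionFieldFull N)),
      D P = P.ord (toFL A π N a)) :
    D ∈ integralPrincipalDivisors A π N :=
  ⟨a.1, a.2.1, a.2.2, fun h0 => ha (Subtype.ext h0), hD⟩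

/-- **`PrincipalGeneratedByIntegral` from `HasRep`** (the converse of `hasRep_of_gen`). -/
theorem principalGeneratedByIntegral_of_hasRep
    [HasPrincipalDivisors L ↥(laurentBaseChange L (modularFunctionFieldFull N))]
    (hrep : HasRep A π N) : PrincipalGeneratedByIntegral A π N := by
  rintro D ⟨f, hf, hD⟩
  obtain ⟨c, a, b, hc, ha, hb, h⟩ := hrep f hf
  have ha0 := toFL_ne_zero_of_red_ne_zero ha
  have hb0 := toFL_ne_zero_of_red_ne_zero hb
  have hc0 : algebraMap L ↥(laurentBaseChange L (modularFunctionFieldFull N)) c ≠ 0 := by
    rwa [Ne, map_eq_zero]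
  obtain ⟨Da, hDa, -⟩ := HasPrincipalDivisors.exists_divisor (K := L) _ ha0
  obtain ⟨Db, hDb, -⟩ := HasPrincipalDivisors.exists_divisor (K := L) _ hb0
  have hDab : D = Da - Db := by
    ext P
    have h1 := congrArg P.ord h
    rw [P.ord_mul hf hb0, P.ord_mul hc0 ha0, Fermat.Agent.S24.Ord.ord_algebraMap, zero_add] at h1
    rw [Finsupp.sub_apply, hD P, hDa P, hDb P]
    linarith
  rw [hDab]
  exact AddSubgroup.sub_mem _
    (AddSubgroup.subset_closure (mem_integralPrincipalDivisors ha hDa))
    (AddSubgroup.subset_closure (mem_integralPrincipalDivisors hb hDb))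

/-! ### The place map of Deuring's theorem is a place reduction -/

section Deuring

variable {gL gk : ℕ}
variable [HasPrincipalDivisors L ↥(laurentBaseChange L (modularFunctionFieldFull N))]
variable [HasPrincipalDivisors k ↥(modularFunctionFieldFullC k N)] [Infinite k]

/-- **The place map of Deuring's theorem satisfies `IsPlaceReductionAlong`**, for any Gauss datum
whose valuation ring and reduction map are those of `hrep`. -/
theorem isPlaceReductionAlong_of_hyp (hrep : HasRep A π N)
    (G : GaussDatum A π ↥(laurentBaseChange L (modularFunctionFieldFull N))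
      ↥(modularFunctionFieldFullC k N))
    (hO : ∀ f : ↥(laurentBaseChange L (modularFunctionFieldFull N)),
      f ∈ G.O ↔ f ∈ OwV A π N hrep)
    (hred : ∀ (f : ↥(laurentBaseChange L (modularFunctionFieldFull N))) (h₁ : f ∈ G.O)
      (h₂ : f ∈ OwV A π N hrep), G.red ⟨f, h₁⟩ = redV A π N hrep ⟨f, h₂⟩)
    (H : Hyp G gL gk) : IsPlaceReductionAlong A π N (placeMap H) := by
  refine ⟨deg_placeMap H, ?_⟩
  intro y hy hyk hne D hD Q
  set a : ↥(intRing A π N) := ⟨y, hy, hyk⟩ with ha
  have haV : toFL A π N a ∈ OwV A π N hrep := toFL_mem_OwV hrep a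
  have haO : toFL A π N a ∈ G.O := (hO _).mpr haV
  have hredu : G.red ⟨toFL A π N a, haO⟩ = red A π N a := by
    rw [hred _ haO haV, redV_toFL]
  have hne' : red A π N a ≠ 0 := fun h0 => hne (congrArg Subtype.val h0)
  have hunit : IsUnit (⟨toFL A π N a, haO⟩ : G.O) := by
    by_contra hnu
    exact hne' (hredu ▸ (G.red_eq_zero_iff _).mpr hnu)
  obtain ⟨u, hu⟩ := hunit
  have h1 := mapDomain_placeMap_div H u D (fun P => by rw [hD P, hu]; rfl) Q
  rw [h1, hu, hredu]
  rfl

/-- **I-1Z, extensional form**: `ReductionInputsAlong` from `HasRep` and the hypotheses of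
Deuring's theorem for any Gauss datum with the valuation ring and the reduction map of `hrep`. -/
theorem reductionInputsAlong_of_hyp (hrep : HasRep A π N)
    (G : GaussDatum A π ↥(laurentBaseChange L (modularFunctionFieldFull N))
      ↥(modularFunctionFieldFullC k N))
    (hO : ∀ f : ↥(laurentBaseChange L (modularFunctionFieldFull N)),
      f ∈ G.O ↔ f ∈ OwV A π N hrep)
    (hred : ∀ (f : ↥(laurentBaseChange L (modularFunctionFieldFull N))) (h₁ : f ∈ G.O)
      (h₂ : f ∈ OwV A π N hrep), G.red ⟨f, h₁⟩ = redV A π N hrep ⟨f, h₂⟩)
    (H : Hyp G gL gk) : ReductionInputsAlong A π N :=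
  ⟨placeMap H, isPlaceReductionAlong_of_hyp hrep G hO hred H,
    principalGeneratedByIntegral_of_hasRep hrep⟩

/-- **I-1Z for the canonical datum.** -/
theorem reductionInputsAlong_of_datum (hrep : HasRep A π N) (hπs : Function.Surjective π)
    (hπ : ∀ a : A, ¬ IsUnit a → π a = 0) (H : Hyp (datumOfRep hrep hπs hπ) gL gk) :
    ReductionInputsAlong A π N :=
  reductionInputsAlong_of_hyp hrep (datumOfRep hrep hπs hπ) (fun _ => Iff.rfl)
    (fun _ _ _ => rfl) H

/-- **I-1Z with (FI) discharged**: over an algebraically closed base of characteristic zero, the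
fundamental inequality follows from the surjectivity of the reduction map
(`Deuring.FundIneq.fi`), so only Riemann's theorem on both sides, `gL ≤ gk` and (OB) remain. -/
theorem reductionInputsAlong_of_ob [IsAlgClosed L] [CharZero L] (hrep : HasRep A π N)
    (hπs : Function.Surjective π) (hπ : ∀ a : A, ¬ IsUnit a → π a = 0)
    {x0 : ↥(laurentBaseChange L (modularFunctionFieldFull N))}
    (hx0 : Fermat.Agent.S24.FF.IsFF L x0)
    (HL : RiemannHyp L ↥(laurentBaseChange L (modularFunctionFieldFull N)) gL)
    (HK : RiemannHyp k ↥(modularFunctionFieldFullC k N) gk) (hg : gL ≤ gk)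
    (hob : (datumOfRep hrep hπs hπ).OB) : ReductionInputsAlong A π N :=
  reductionInputsAlong_of_datum hrep hπs hπ
    ⟨HL, HK, hg, hob,
      Fermat.Agent.S37.Deuring.FundIneq.fi (datumOfRep hrep hπs hπ) hx0 HK
        (datumOfRep_red_surjective hrep hπs hπ)⟩

end Deuring

end General

/-! ### The instance `L = AlgebraicClosure ℚ`, `π = residue A` -/

section ModL

local notation "Kb" => AlgebraicClosure ℚ

set_option synthInstance.maxHeartbeats 400000

open Fermat.Agent.S18.GaussFromHBar

variable {A : ValuationSubring (AlgebraicClosure ℚ)} {N : ℕ} [NeZero N]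

/-- The canonical Gauss datum in the frozen setting of S18/S37. -/
def datumModL (hrep : HasRep A (IsLocalRing.residue A) N) :
    GaussDatum A (IsLocalRing.residue A) ↥(modularFunctionFieldBar N)
      ↥(modularFunctionFieldFullC (IsLocalRing.ResidueField A) N) :=
  datumOfRep hrep IsLocalRing.residue_surjective residue_eq_zero_of_not_isUnit

@[simp] theorem datumModL_O (hrep : HasRep A (IsLocalRing.residue A) N) :
    (datumModL hrep).O = OwV A (IsLocalRing.residue A) N hrep := rfl

@[simp] theorem datumModL_red (hrep : HasRep A (IsLocalRing.residue A) N) :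
    (datumModL hrep).red = redV A (IsLocalRing.residue A) N hrep := rfl

theorem datumModL_red_surjective (hrep : HasRep A (IsLocalRing.residue A) N) :
    Function.Surjective (datumModL hrep).red :=
  redV_surjective hrep IsLocalRing.residue_surjective

/-- principal divisors exist on the characteristic `ℓ` side -/
theorem hasPrincipalDivisors_Fk (A : ValuationSubring (AlgebraicClosure ℚ)) (N : ℕ) [NeZero N] :
    HasPrincipalDivisors (IsLocalRing.ResidueField A)
      ↥(modularFunctionFieldFullC (IsLocalRing.ResidueField A) N) := by
  haveI : IsAlgClosed (IsLocalRing.ResidueField A) :=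
    Fermat.Agent.S18.ResidueBasics.isAlgClosed_residueField A
  exact Fermat.Agent.S18.A.PrincipalDivisors.hasPrincipalDivisors
    (Fermat.Agent.S18.B.FkBasics.isFF (IsLocalRing.ResidueField A) N)
    (Fermat.Agent.S18.B.SeparableFk.isSeparable_jk (IsLocalRing.ResidueField A) N)

/-- the residue field is infinite -/
theorem infinite_residueField (A : ValuationSubring (AlgebraicClosure ℚ)) :
    Infinite (IsLocalRing.ResidueField A) := by
  haveI : IsAlgClosed (IsLocalRing.ResidueField A) :=
    Fermat.Agent.S18.ResidueBasics.isAlgClosed_residueField A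
  exact IsAlgClosed.instInfinite

/-- **I-1Z, frozen setting, from the bundled hypotheses of Deuring's theorem.** -/
theorem reductionInputsModL_of_hyp (hrep : HasRep A (IsLocalRing.residue A) N) {gL gk : ℕ}
    (H : Hyp (datumModL hrep) gL gk) : ReductionInputsModL A N := by
  haveI := hasPrincipalDivisors_bar N
  haveI := hasPrincipalDivisors_Fk A N
  haveI := infinite_residueField A
  exact reductionInputsAlong_of_datum hrep IsLocalRing.residue_surjective
    residue_eq_zero_of_not_isUnit H

/-- **I-1Z, frozen setting, (FI) discharged**: `ReductionInputsModL A N` from `HasRep`, Riemann's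
theorem on both sides, the inequality of genera and (OB). -/
theorem reductionInputsModL_of_ob (hrep : HasRep A (IsLocalRing.residue A) N) {gL gk : ℕ}
    (HL : RiemannHyp Kb ↥(modularFunctionFieldBar N) gL)
    (HK : RiemannHyp (IsLocalRing.ResidueField A)
      ↥(modularFunctionFieldFullC (IsLocalRing.ResidueField A) N) gk)
    (hg : gL ≤ gk) (hob : (datumModL hrep).OB) : ReductionInputsModL A N :=
  reductionInputsModL_of_hyp hrep
    ⟨HL, HK, hg, hob,
      Fermat.Agent.S37.Deuring.FundIneq.fi (datumModL hrep) (Fermat.Agent.S24.Degree.isFF N) HK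
        (datumModL_red_surjective hrep)⟩

/-- **I-1Z, frozen setting, end shape**: `ReductionInputsModL A N` from `HasRep`, (OB) and the
inequality `gL ≤ gk` between ANY genera for which Riemann's theorem holds on the two sides (such
genera exist by `S18.A.Hurwitz.exists_genus_FL/_Fk`, and are unique). -/
theorem reductionInputsModL_of_ob' (hrep : HasRep A (IsLocalRing.residue A) N)
    (hob : (datumModL hrep).OB)
    (hg : ∀ gL gk : ℕ, RiemannHyp Kb ↥(modularFunctionFieldBar N) gL →
      RiemannHyp (IsLocalRing.ResidueField A)
        ↥(modularFunctionFieldFullC (IsLocalRing.ResidueField A) N) gk → gL ≤ gk) :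
    ReductionInputsModL A N := by
  haveI : IsAlgClosed (IsLocalRing.ResidueField A) :=
    Fermat.Agent.S18.ResidueBasics.isAlgClosed_residueField A
  obtain ⟨gL, HL, -⟩ := Fermat.Agent.S18.A.Hurwitz.exists_genus_FL N
  obtain ⟨gk, HK, -⟩ := Fermat.Agent.S18.A.Hurwitz.exists_genus_Fk (IsLocalRing.ResidueField A) N
    (Fermat.Agent.S18.B.SeparableFk.isSeparable_jk (IsLocalRing.ResidueField A) N)
  exact reductionInputsModL_of_ob hrep HL HK (hg gL gk HL HK) hob

end ModL

end Fermat.Agent.S37.ReductionInputs
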