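import Mathlib
import Fermat.Agent.S37.Gauss.Datum
import Fermat.Agent.S37.Deuring.HypOfBasis
import Fermat.Agent.S37.ReductionInputs

/-!
# PROJECT I (S37), slice I-1Z, instantiation: `ReductionInputsModL A N` from the genus inequality

For `ℓ ∤ N` and `A` a valuation subring of `ℚ̄` over `ℓ`, the Gauss datum
`Gauss.Datum.gaussDatum N A hA hℓN` of slice I-1a satisfies all hypotheses of Deuring's theorem
except (possibly) the inequality of genera:

* `exists_onb` : an orthonormal basis (a family in the Gauss valuation ring which spans `F_L` over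
  `ℚ̄(j)` and whose reductions are independent over `k(j̄)`), from `Gauss.HasRep.exists_bases`;
* `hyp_X0 : gL ≤ gk → Deuring.Core.Hyp (gaussDatum N A hA hℓN) gL gk`;
* `reductionInputsModL_X0` : `ReductionInputsModL A N` from the inequality of genera;
* `genus_eq_X0` : conversely the two genera are then equal.
-/

set_option autoImplicit false
set_option linter.unusedSectionVars false
set_option linter.style.haveILetI false

noncomputable section

namespace Fermat.Agent.S37.ReductionInputsX0

open ModularCurve IntermediateField AlgebraicCurve IsLocalRing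
open Fermat.Agent.S18.A Fermat.Agent.S18.C Fermat.Agent.S18.NonSpecial
open Fermat.Agent.S37.Deuring.Core

/-! ### transport between `RatFunc K` and `K(x)` -/

section Transport

variable {K F : Type*} [Field K] [Field F] [Algebra K F] {x : F}

/-- a `RatFunc K`-basis of `F` (`X ↦ x`) spans `F` over `K(x)` -/
theorem span_adjoin_of_ratFunc_basis (hx : Transcendental K x) [Algebra (RatFunc K) F]
    (halg : ∀ a : RatFunc K, algebraMap (RatFunc K) F a = Chart.evalRat hx a)
    {ι : Type*} [Fintype ι] (b : Module.Basis ι (RatFunc K) F) :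
    ⊤ ≤ Submodule.span K⟮x⟯ (Set.range fun i => b i) := by
  intro f _
  have hmem : ∀ a : RatFunc K, Chart.evalRat hx a ∈ K⟮x⟯ := fun a =>
    Chart.evalRat_mem_adjoin hx (IntermediateField.mem_adjoin_simple_self K x) a
  have hf : f = ∑ i, (⟨Chart.evalRat hx (b.repr f i), hmem _⟩ : K⟮x⟯) • b i := by
    conv_lhs => rw [← b.sum_repr f]
    refine Finset.sum_congr rfl fun i _ => ?_
    rw [Algebra.smul_def, halg, IntermediateField.smul_def]
    rfl
  rw [hf]
  exact Submodule.sum_mem _ fun i _ =>
    Submodule.smul_mem _ _ (Submodule.subset_span ⟨i, rfl⟩)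

/-- a `RatFunc K`-independent family of `F` (`X ↦ x`) is independent over `K(x)` -/
theorem linearIndependent_adjoin_of_ratFunc (hx : Transcendental K x) [Algebra (RatFunc K) F]
    (halg : ∀ a : RatFunc K, algebraMap (RatFunc K) F a = Chart.evalRat hx a)
    {ι : Type*} [Fintype ι] (v : ι → F) (hv : LinearIndependent (RatFunc K) v) :
    LinearIndependent K⟮x⟯ v := by
  rw [Fintype.linearIndependent_iff]
  intro g hg i
  have hxx : x ∈ K⟮x⟯ := IntermediateField.mem_adjoin_simple_self K x
  have hbij := Chart.ratToAdjoin_bijective hx hxx (Y₀ := RatFunc.X) (Chart.evalRat_X hx)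
  choose r hr using fun i => hbij.2 (g i)
  have h1 : ∑ i, r i • v i = 0 := by
    rw [← hg]
    refine Finset.sum_congr rfl fun i _ => ?_
    rw [Algebra.smul_def, halg, IntermediateField.smul_def, ← hr i]
    rfl
  have h2 := Fintype.linearIndependent_iff.mp hv r h1 i
  rw [← hr i, h2, map_zero]

end Transport

/-! ### the orthonormal basis of the Gauss datum of `X₀(N)` -/

section X0

local notation "Kb" => AlgebraicClosure ℚ

set_option synthInstance.maxHeartbeats 400000

open Fermat.Agent.S24.DegreeAlg (jgen)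
open Fermat.Agent.S18.B.FkBasics (jk transcendental_jk)
open Fermat.Agent.S18.GaussFromH
open Fermat.Agent.S37.Gauss Fermat.Agent.S37.Gauss.Datum

variable {ℓ : ℕ} [Fact ℓ.Prime] (N : ℕ) [NeZero N] (A : ValuationSubring Kb)
variable (hA : A.LiesOverPrime ℓ) (hℓN : ¬ ℓ ∣ N)
include hA hℓN

/-- **The orthonormal basis**: a finite family in the Gauss valuation ring which spans `F_L` over
`ℚ̄(j)` and whose reductions are linearly independent over `k(j̄)`. -/
theorem exists_onb :
    ∃ (n : ℕ) (u : Fin n → ↥(gaussDatum N A hA hℓN).O),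
      LinearIndependent (ResidueField ↥A)⟮jk (ResidueField ↥A) N⟯
        (fun i => (gaussDatum N A hA hℓN).red (u i)) ∧
      ⊤ ≤ Submodule.span Kb⟮jgen N⟯
        (Set.range fun i =>
          ((u i : ↥(gaussDatum N A hA hℓN).O) : ↥(modularFunctionFieldBar N))) := by
  haveI : CharP (ResidueField ↥A) ℓ := Fermat.Agent.S18.ResidueBasics.charP_residueField A hA
  haveI : IsAlgClosed (ResidueField ↥A) :=
    Fermat.Agent.S18.ResidueBasics.isAlgClosed_residueField A
  letI : Algebra (ZMod ℓ) (ResidueField ↥A) := ZMod.algebra (ResidueField ↥A) ℓ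
  obtain ⟨n, t, bL, bk, hbL, hbk⟩ := HasRep.exists_bases ℓ N (ResidueField ↥A) hℓN
  choose α β hβ hLαβ hKαβ using fun i =>
    HasRep.exists_rep_OwFull N A (residue ↥A) hA hℓN (t i)
  have hL' : ∀ i, bL i * toFL A (residue ↥A) N (β i) = toFL A (residue ↥A) N (α i) := by
    intro i
    rw [hbL i]
    exact hLαβ i
  have hmem : ∀ i, bL i ∈ (gaussDatum N A hA hℓN).O := fun i =>
    (mem_O_iff hA hℓN).mpr ⟨α i, β i, hβ i, hL' i⟩
  have hred : ∀ i, (gaussDatum N A hA hℓN).red ⟨bL i, hmem i⟩ = bk i := by
    intro i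
    rw [red_eq hA hℓN ⟨bL i, hmem i⟩ (hβ i) (hL' i), hbk i, ← hKαβ i,
      mul_div_cancel_right₀ _ (hβ i)]
  refine ⟨n, fun i => ⟨bL i, hmem i⟩, ?_, ?_⟩
  · have h1 : (fun i => (gaussDatum N A hA hℓN).red ⟨bL i, hmem i⟩) = fun i => bk i :=
      funext hred
    rw [h1]
    exact linearIndependent_adjoin_of_ratFunc (transcendental_jk (ResidueField ↥A) N)
      (ModularInst.algebraMap_Fk N (ResidueField ↥A)) _ bk.linearIndependent
  · exact span_adjoin_of_ratFunc_basis (ModularInst.transcendental_jgen N)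
      (ModularInst.algebraMap_FL N) bL

/-- **All hypotheses of Deuring's theorem for `X₀(N)` at `ℓ ∤ N`**, from the inequality of
genera. -/
theorem hyp_X0 {gL gk : ℕ} (HL : RiemannHyp Kb ↥(modularFunctionFieldBar N) gL)
    (HK : RiemannHyp (ResidueField ↥A) ↥(modularFunctionFieldFullC (ResidueField ↥A) N) gk)
    (hg : gL ≤ gk) : Hyp (gaussDatum N A hA hℓN) gL gk := by
  obtain ⟨n, u, hi, hii⟩ := exists_onb N A hA hℓN
  have hj := red_jgen hA hℓN
  refine Fermat.Agent.S37.Deuring.HypOfBasis.hyp_of_basis (gaussDatum N A hA hℓN)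
    (Fermat.Agent.S24.Degree.isFF N) HL HK hg (red_surjective hA hℓN)
    ⟨jgen N, jgen_mem_O hA hℓN⟩ u ?_ ?_ hii
  · rw [hj]
    exact transcendental_jk (ResidueField ↥A) N
  · rw [hj]
    exact hi

/-- the two genera agree as soon as `gL ≤ gk` -/
theorem genus_eq_X0 {gL gk : ℕ} (HL : RiemannHyp Kb ↥(modularFunctionFieldBar N) gL)
    (HK : RiemannHyp (ResidueField ↥A) ↥(modularFunctionFieldFullC (ResidueField ↥A) N) gk)
    (hg : gL ≤ gk) : gk = gL := by
  haveI := Fermat.Agent.S18.GaussFromHBar.hasPrincipalDivisors_bar N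
  haveI := Fermat.Agent.S37.ReductionInputs.hasPrincipalDivisors_Fk A N
  haveI := Fermat.Agent.S37.ReductionInputs.infinite_residueField A
  exact genus_eq (hyp_X0 N A hA hℓN HL HK hg)

/-- **I-1Z for `X₀(N)`**: `ReductionInputsModL A N` from the inequality of genera, for given
genera. -/
theorem reductionInputsModL_X0_of_le {gL gk : ℕ}
    (HL : RiemannHyp Kb ↥(modularFunctionFieldBar N) gL)
    (HK : RiemannHyp (ResidueField ↥A) ↥(modularFunctionFieldFullC (ResidueField ↥A) N) gk)
    (hg : gL ≤ gk) : ReductionInputsModL A N :=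
  Fermat.Agent.S37.ReductionInputs.reductionInputsModL_of_hyp (hasRep N A hA hℓN)
    (hyp_X0 N A hA hℓN HL HK hg)

/-- **I-1Z for `X₀(N)`, end shape**: `ReductionInputsModL A N` for `ℓ ∤ N` from the inequality
`gL ≤ gk` between ANY genera for which Riemann's theorem holds on the two sides. -/
theorem reductionInputsModL_X0
    (hg : ∀ gL gk : ℕ, RiemannHyp Kb ↥(modularFunctionFieldBar N) gL →
      RiemannHyp (ResidueField ↥A) ↥(modularFunctionFieldFullC (ResidueField ↥A) N) gk →
        gL ≤ gk) :
    ReductionInputsModL A N := by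
  haveI : IsAlgClosed (ResidueField ↥A) :=
    Fermat.Agent.S18.ResidueBasics.isAlgClosed_residueField A
  obtain ⟨gL, HL, -⟩ := Fermat.Agent.S18.A.Hurwitz.exists_genus_FL N
  obtain ⟨gk, HK, -⟩ := Fermat.Agent.S18.A.Hurwitz.exists_genus_Fk (ResidueField ↥A) N
    (Fermat.Agent.S18.B.SeparableFk.isSeparable_jk (ResidueField ↥A) N)
  exact reductionInputsModL_X0_of_le N A hA hℓN HL HK (hg gL gk HL HK)

end X0

end Fermat.Agent.S37.ReductionInputsX0
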