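import Mathlib
import Fermat.Agent.S37.Wild.GenusLe
import Fermat.Agent.S37.Diff.GenusX0
import Fermat.Agent.S37.ReductionInputsX0
import Fermat.Agent.S18.A.Hurwitz
import Fermat.Agent.S18.B.SeparableFk

/-!
# PROJECT I (S37), slice I-1b, FINAL GLUE (helper6): `g(X₀(N)/ℚ̄) ≤ g(X₀(N)/k)` at EVERY prime
`ℓ ∤ N`, and `ReductionInputsModL A N`, from the cusp count alone

`A` a valuation ring of `ℚ̄` over a prime `ℓ ∤ N`, `k = κ(A)`, `G = Gauss.Datum.gaussDatum N A`.

* `jIn` : `j` is Gauss-integral for `G` and reduces to `j̄` (`Wild.KModel.JIn G`);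
* `genus_le` : `gL ≤ gk` in the shape of the hypothesis `hg` of
  `ReductionInputsX0.reductionInputsModL_X0`:
  - `1728 ≠ 0` in `k` (`ℓ ≥ 5`) : `Diff.GenusX0.genus_le_of_1728` (reduction of differentials,
    no hypothesis);
  - `1728 = 0` in `k` (`ℓ ∈ {2, 3}`) : `Wild.GenusLe.genus_le_of_collision` (contract K3 for `G`
    + Hurwitz on both sides + the cusp count `hcp`);
* `reductionInputsModL` : `ReductionInputsModL A N` from `hcp` (needed for `ℓ ∈ {2, 3}` only).

`hcp : (1728 : k) = 0 → CuspCount N A` : `j̄` has at most as many poles on `X₀(N)/k` as `j` has on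
`X₀(N)/ℚ̄` (slice I-1b-cusps).
-/

set_option autoImplicit false
set_option synthInstance.maxHeartbeats 400000
set_option linter.unusedSectionVars false
set_option linter.style.haveILetI false

noncomputable section

namespace Fermat.Agent.S37.GenusAll

open AlgebraicCurve ModularCurve IntermediateField IsLocalRing
open Fermat.Agent.S18.A Fermat.Agent.S18.B Fermat.Agent.S18.C
open Fermat.Agent.S18.NonSpecial
open Fermat.Agent.S37.Gauss
open Fermat.Agent.S24.DegreeAlg (jgen)

local notation "Kb" => AlgebraicClosure ℚ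

attribute [local instance 2000] Fermat.Agent.S18.C.KModelX0.algkFk

variable {ℓ : ℕ} [Fact ℓ.Prime] (N : ℕ) [NeZero N] (A : ValuationSubring Kb)

/-- **The cusp count** (slice I-1b-cusps): `j̄` has at most as many poles on `X₀(N)/k` as `j` has
on `X₀(N)/ℚ̄`.  (`IsAlgClosed` and `hsep` are propositions, so any proofs of them may be used.) -/
def CuspCount (N : ℕ) [NeZero N] (A : ValuationSubring (AlgebraicClosure ℚ)) : Prop :=
  ∀ [IsAlgClosed (ResidueField ↥A)]
    (hsep : Algebra.IsSeparable
      (ResidueField ↥A)⟮FkBasics.jk (ResidueField ↥A) N⟯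
      ↥(modularFunctionFieldFullC (ResidueField ↥A) N)),
    (FibreSep.poles (FkBasics.isFF (ResidueField ↥A) N) hsep).card
      ≤ (FibreSep.poles (Instances.isFF_jgen N) (Instances.isSeparable_jgen N)).card

variable (hA : A.LiesOverPrime ℓ) (hℓN : ¬ ℓ ∣ N)
include hA hℓN

/-- `j` is Gauss-integral for the Gauss datum of `X₀(N)` at `A` and reduces to `j̄`. -/
theorem jIn : Fermat.Agent.S37.Wild.KModel.JIn (Datum.gaussDatum N A hA hℓN) where
  mem := by
    rw [ModularInst.algebraMap_FL_X]
    exact Datum.jgen_mem_O hA hℓN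
  red_eq := by
    rw [ModularInst.algebraMap_Fk_X]
    refine Eq.trans ?_ (Datum.red_jgen hA hℓN)
    congr 1
    exact Subtype.ext (ModularInst.algebraMap_FL_X N)

/-- **`g(F_L) ≤ g(F_k)` for `X₀(N)` at every prime `ℓ ∤ N`**, from the cusp count (used only when
`1728 = 0` in `k`, i.e. `ℓ ∈ {2, 3}`). -/
theorem genus_le
    (hcp : (1728 : ResidueField ↥A) = 0 → CuspCount N A) :
    ∀ gL gk : ℕ, RiemannHyp Kb ↥(modularFunctionFieldBar N) gL →
      RiemannHyp (ResidueField ↥A) ↥(modularFunctionFieldFullC (ResidueField ↥A) N) gk →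
        gL ≤ gk := by
  intro gL gk HL Hk
  haveI : IsAlgClosed (ResidueField ↥A) :=
    Fermat.Agent.S18.ResidueBasics.isAlgClosed_residueField A
  by_cases h1728 : (1728 : ResidueField ↥A) = 0
  · haveI := jIn N A hA hℓN
    have hsep := SeparableFk.isSeparable_jk (ResidueField ↥A) N
    exact Fermat.Agent.S37.Wild.GenusLe.genus_le_of_collision N A (Datum.gaussDatum N A hA hℓN)
      (Datum.red_surjective hA hℓN) hℓN hA hsep
      (Hurwitz.hurwitzFormula (Instances.isFF_jgen N) (Instances.isSeparable_jgen N) HL)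
      (Hurwitz.hurwitzFormula (FkBasics.isFF (ResidueField ↥A) N) hsep Hk)
      (hcp h1728 hsep) h1728
  · exact Fermat.Agent.S37.Diff.GenusX0.genus_le_of_1728 hA hℓN h1728 HL Hk

/-- **`ReductionInputsModL A N` for every valuation ring `A` of `ℚ̄` over a prime `ℓ ∤ N`**, from
the cusp count (used only for `ℓ ∈ {2, 3}`). -/
theorem reductionInputsModL
    (hcp : (1728 : ResidueField ↥A) = 0 → CuspCount N A) :
    ReductionInputsModL A N :=
  Fermat.Agent.S37.ReductionInputsX0.reductionInputsModL_X0 N A hA hℓN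
    (genus_le N A hA hℓN hcp)

/-- the same for `ℓ ≠ 2, 3`: no hypothesis at all. -/
theorem reductionInputsModL_of_ne (h2 : ℓ ≠ 2) (h3 : ℓ ≠ 3) : ReductionInputsModL A N :=
  reductionInputsModL N A hA hℓN
    (fun h => absurd h (Fermat.Agent.S37.Diff.GenusX0.ne_zero_1728 hA h2 h3))

end Fermat.Agent.S37.GenusAll
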