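/-
Project I (S37), slice I-0: the formal reduction.

`SpecializationExists` for a Hecke-Galois module `J` (living in `Type`) is reduced to:
for every prime `ℓ ∤ N p` and every valuation subring `A` over `ℓ`, ONE Frobenius element `s0`
at `A` and ONE additive map `red : J →+ X` to an additive group `X` carrying two additive
endomorphisms `Fb`, `V` with `V ∘ Fb = ℓ` such that

* (R1) `red (σ • x) = red x` for `σ` in the inertia subgroup at `A`;
* (R2) `red (s0 • x) = Fb (red x)`;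
* (R3) `red (T_ℓ • x) = Fb (red x) + V (red x)`   (Eichler-Shimura pointwise, for `T_ℓ` only);
* (R4) `red` is injective on `p`-power torsion.

The specialisation target is `J' := J ⧸ Kk` where `Kk` is the Hecke submodule generated by
`σ • x - x` (`σ` in inertia) and by the range of `s0² - T_ℓ s0 + ℓ`; `sp` is the quotient map and
`F` is the map induced by `s0`.  Everything but `injective_torsion` is formal; `injective_torsion`
holds because `red` kills `Kk`.
-/
import Mathlib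
import Fermat.Prelude.Def_HeckeGalois_EichlerShimura

set_option autoImplicit false

namespace Fermat.Agent.S37.Reduction

open ModularCurve

section Ramification

variable {K L : Type*} [Field K] [Field L] [Algebra K L] (A : ValuationSubring L)

/-- The inertia subgroup (as a subgroup of the full Galois group) is normalised by the
decomposition group. -/
theorem conj_mem_inertiaSubgroupIn {d σ : L ≃ₐ[K] L} (hd : d ∈ A.decompositionSubgroup K)
    (hσ : σ ∈ A.inertiaSubgroupIn K) : d * σ * d⁻¹ ∈ A.inertiaSubgroupIn K := by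
  obtain ⟨τ, hτ, rfl⟩ := hσ
  have hn : (A.inertiaSubgroup K).Normal := by
    unfold ValuationSubring.inertiaSubgroup
    infer_instance
  refine ⟨(⟨d, hd⟩ : A.decompositionSubgroup K) * τ * (⟨d, hd⟩ : A.decompositionSubgroup K)⁻¹,
    hn.conj_mem τ hτ _, ?_⟩
  simp

/-- Two Frobenius elements at `A` differ by an element of the inertia subgroup. -/
theorem mul_inv_mem_inertiaSubgroupIn_of_isFrobeniusAt {σ s0 : L ≃ₐ[K] L} {q : ℕ}
    (hσ : A.IsFrobeniusAt σ q) (hs0 : A.IsFrobeniusAt s0 q) :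
    σ * s0⁻¹ ∈ A.inertiaSubgroupIn K := by
  obtain ⟨hσD, hσq⟩ := hσ
  obtain ⟨hs0D, hs0q⟩ := hs0
  refine ⟨(⟨σ, hσD⟩ : A.decompositionSubgroup K) * (⟨s0, hs0D⟩ : A.decompositionSubgroup K)⁻¹,
    ?_, by simp⟩
  change _ ∈ MonoidHom.ker _
  rw [MonoidHom.mem_ker]
  ext x
  change ((⟨σ, hσD⟩ : A.decompositionSubgroup K) * (⟨s0, hs0D⟩ : A.decompositionSubgroup K)⁻¹) • x
    = x
  rw [mul_smul]
  have h1 : (⟨s0, hs0D⟩ : A.decompositionSubgroup K) •
      ((⟨s0, hs0D⟩ : A.decompositionSubgroup K)⁻¹ • x) = x := smul_inv_smul _ x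
  rw [hσq, ← hs0q, h1]

end Ramification

section Abstract

variable (K : Type*) {L : Type*} [Field K] [Field L] [Algebra K L]
variable (J : Type*) [AddCommGroup J] [Module HeckeAlg J]
  [DistribMulAction (L ≃ₐ[K] L) J] [SMulCommClass (L ≃ₐ[K] L) HeckeAlg J]

/-- The action of a Galois element as a Hecke-linear endomorphism. -/
noncomputable def galoisLin (σ : L ≃ₐ[K] L) : J →ₗ[HeckeAlg] J :=
  DistribSMul.toLinearMap HeckeAlg J σ

@[simp] theorem galoisLin_apply (σ : L ≃ₐ[K] L) (x : J) : galoisLin K J σ x = σ • x := rfl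

/-- The Eichler-Shimura quadratic `s0² - T_ℓ s0 + ℓ` as a Hecke-linear endomorphism. -/
noncomputable def frobQuad (ℓ : ℕ) (hℓ : ℓ.Prime) (s0 : L ≃ₐ[K] L) : J →ₗ[HeckeAlg] J :=
  galoisLin K J s0 ∘ₗ galoisLin K J s0 - heckeGen ⟨ℓ, hℓ⟩ • galoisLin K J s0 + ℓ • LinearMap.id

theorem frobQuad_apply (ℓ : ℕ) (hℓ : ℓ.Prime) (s0 : L ≃ₐ[K] L) (x : J) :
    frobQuad K J ℓ hℓ s0 x = s0 • s0 • x - heckeGen ⟨ℓ, hℓ⟩ • (s0 • x) + ℓ • x := by
  simp [frobQuad]

/-- The generators of the first kind: `σ • x - x` with `σ` in the inertia subgroup. -/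
def inertiaGens (A : ValuationSubring L) : Set J :=
  {y | ∃ σ ∈ A.inertiaSubgroupIn K, ∃ x : J, y = σ • x - x}

/-- The Hecke submodule `Kk` we divide by. -/
noncomputable def specKernel (A : ValuationSubring L) (ℓ : ℕ) (hℓ : ℓ.Prime) (s0 : L ≃ₐ[K] L) :
    Submodule HeckeAlg J :=
  Submodule.span HeckeAlg (inertiaGens K J A ∪ Set.range (frobQuad K J ℓ hℓ s0))

theorem smul_sub_mem_specKernel (A : ValuationSubring L) (ℓ : ℕ) (hℓ : ℓ.Prime)
    (s0 : L ≃ₐ[K] L) {σ : L ≃ₐ[K] L} (hσ : σ ∈ A.inertiaSubgroupIn K) (x : J) :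
    σ • x - x ∈ specKernel K J A ℓ hℓ s0 :=
  Submodule.subset_span (Or.inl ⟨σ, hσ, x, rfl⟩)

theorem frobQuad_mem_specKernel (A : ValuationSubring L) (ℓ : ℕ) (hℓ : ℓ.Prime)
    (s0 : L ≃ₐ[K] L) (x : J) : frobQuad K J ℓ hℓ s0 x ∈ specKernel K J A ℓ hℓ s0 :=
  Submodule.subset_span (Or.inr ⟨x, rfl⟩)

/-- `Kk` is stable under a Frobenius element `s0` (in fact under any element of the decomposition
group). -/
theorem specKernel_le_comap (A : ValuationSubring L) (ℓ : ℕ) (hℓ : ℓ.Prime) (s0 : L ≃ₐ[K] L)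
    (hs0 : s0 ∈ A.decompositionSubgroup K) :
    specKernel K J A ℓ hℓ s0 ≤ (specKernel K J A ℓ hℓ s0).comap (galoisLin K J s0) := by
  unfold specKernel
  rw [Submodule.span_le]
  rintro y (⟨σ, hσ, x, rfl⟩ | ⟨x, rfl⟩)
  · have h := smul_sub_mem_specKernel K J A ℓ hℓ s0
      (conj_mem_inertiaSubgroupIn A hs0 hσ) (s0 • x)
    have e : (s0 * σ * s0⁻¹) • s0 • x - s0 • x = galoisLin K J s0 (σ • x - x) := by
      rw [galoisLin_apply, smul_sub, mul_smul, mul_smul, inv_smul_smul]
    rw [e] at h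
    exact h
  · have h := frobQuad_mem_specKernel K J A ℓ hℓ s0 (s0 • x)
    have e : frobQuad K J ℓ hℓ s0 (s0 • x) = galoisLin K J s0 (frobQuad K J ℓ hℓ s0 x) := by
      rw [← galoisLin_apply K J s0 x, ← LinearMap.comp_apply, ← LinearMap.comp_apply]
      congr 1
      ext z
      simp only [LinearMap.comp_apply, galoisLin_apply, frobQuad_apply, smul_add, smul_sub,
        smul_comm s0 (heckeGen ⟨ℓ, hℓ⟩), smul_comm s0 ℓ]
    rw [e] at h
    exact h

variable {K J}

/-- A merely additive map `red` kills the Hecke submodule generated by a set `S` as soon as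
it kills all Hecke multiples of the elements of `S`. -/
theorem map_eq_zero_of_mem_span {X : Type*} [AddCommGroup X] (red : J →+ X) (S : Set J)
    (hS : ∀ y ∈ S, ∀ T : HeckeAlg, red (T • y) = 0) {y : J}
    (hy : y ∈ Submodule.span HeckeAlg S) : red y = 0 := by
  let M : Submodule HeckeAlg J :=
    { carrier := {y | ∀ T : HeckeAlg, red (T • y) = 0}
      add_mem' := fun {a b} ha hb T => by rw [smul_add, map_add, ha T, hb T, add_zero]
      zero_mem' := fun T => by rw [smul_zero, map_zero]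
      smul_mem' := fun c y hy T => by rw [← mul_smul]; exact hy _ }
  have h : Submodule.span HeckeAlg S ≤ M := Submodule.span_le.2 hS
  have := h hy 1
  rwa [one_smul] at this

end Abstract

section Main

variable {K L : Type*} [Field K] [Field L] [Algebra K L]

/-- **Slice I-0, abstract form.**  Let `J` be a Hecke-Galois module, `A` a valuation subring of
`L`, `ℓ` a prime and `s0` a Frobenius element at `A`.  Any additive map `red : J →+ X` with
(R1) inertia-invariance, (R2) `red ∘ s0 = Fb ∘ red`, (R3) `red ∘ T_ℓ = (Fb + V) ∘ red` where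
`V ∘ Fb = ℓ`, and (R4) injectivity on `p`-power torsion, produces specialisation data
`(J', sp, F)` with the Eichler-Shimura relation on the special fibre. -/
theorem exists_specialization_of_red (p : ℕ) (J : Type) [AddCommGroup J] [Module HeckeAlg J]
    [DistribMulAction (L ≃ₐ[K] L) J] [SMulCommClass (L ≃ₐ[K] L) HeckeAlg J]
    (A : ValuationSubring L) (ℓ : ℕ) (hℓ : ℓ.Prime) (s0 : L ≃ₐ[K] L)
    (hs0 : A.IsFrobeniusAt s0 ℓ)
    {X : Type*} [AddCommGroup X] (red : J →+ X) (Fb V : X →+ X)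
    (hV : ∀ y : X, V (Fb y) = ℓ • y)
    (R1 : ∀ σ ∈ A.inertiaSubgroupIn K, ∀ x : J, red (σ • x) = red x)
    (R2 : ∀ x : J, red (s0 • x) = Fb (red x))
    (R3 : ∀ x : J, red (heckeGen ⟨ℓ, hℓ⟩ • x) = Fb (red x) + V (red x))
    (R4 : ∀ x : J, (∃ n : ℕ, p ^ n • x = 0) → red x = 0 → x = 0) :
    ∃ (J' : Type) (_ : AddCommGroup J') (_ : Module HeckeAlg J') (sp : J →+ J')
      (F : J' →+ J'),
      IsSpecialization (K := K) p J J' A ℓ sp F ∧ SpecialFibreRelation J' ℓ hℓ F := by
  have hs0D : s0 ∈ A.decompositionSubgroup K := hs0.mem_decompositionSubgroup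
  set Kk : Submodule HeckeAlg J := specKernel K J A ℓ hℓ s0 with hKk
  have hstab : Kk ≤ Kk.comap (galoisLin K J s0) := specKernel_le_comap K J A ℓ hℓ s0 hs0D
  -- `red` kills `Kk`
  have hred : ∀ y ∈ Kk, red y = 0 := by
    intro y hy
    refine map_eq_zero_of_mem_span red _ ?_ hy
    rintro z (⟨σ, hσ, x, rfl⟩ | ⟨x, rfl⟩) T
    · rw [smul_sub, ← smul_comm σ T x, map_sub, R1 σ hσ, sub_self]
    · rw [← LinearMap.map_smul, frobQuad_apply, map_add, map_sub, R2, R2, R3, R2, hV, map_nsmul]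
      abel
  refine ⟨J ⧸ Kk, inferInstance, inferInstance, Kk.mkQ.toAddMonoidHom,
    (Kk.mapQ Kk (galoisLin K J s0) hstab).toAddMonoidHom, ⟨?_, ?_, ?_, ?_⟩, ?_⟩
  · intro T x
    rfl
  · intro σ hσ x
    have h : σ • x - x ∈ Kk := smul_sub_mem_specKernel K J A ℓ hℓ s0 hσ x
    have := (Submodule.Quotient.mk_eq_zero Kk).2 h
    rw [Submodule.Quotient.mk_sub, sub_eq_zero] at this
    exact this
  · intro σ hσ x
    have hτ : σ * s0⁻¹ ∈ A.inertiaSubgroupIn K :=
      mul_inv_mem_inertiaSubgroupIn_of_isFrobeniusAt A hσ hs0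
    have h : (σ * s0⁻¹) • (s0 • x) - s0 • x ∈ Kk :=
      smul_sub_mem_specKernel K J A ℓ hℓ s0 hτ (s0 • x)
    rw [mul_smul, inv_smul_smul] at h
    have := (Submodule.Quotient.mk_eq_zero Kk).2 h
    rw [Submodule.Quotient.mk_sub, sub_eq_zero] at this
    exact this
  · intro x hx hsp
    have hxK : x ∈ Kk := (Submodule.Quotient.mk_eq_zero Kk).1 hsp
    exact R4 x hx (hred x hxK)
  · intro y
    obtain ⟨x, rfl⟩ := Kk.mkQ_surjective y
    have h : frobQuad K J ℓ hℓ s0 x ∈ Kk := frobQuad_mem_specKernel K J A ℓ hℓ s0 x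
    have := (Submodule.Quotient.mk_eq_zero Kk).2 h
    rw [frobQuad_apply] at this
    exact this

/-- **Slice I-0, variant with an additive automorphism `Fb`** (`V = ℓ Fb⁻¹`), exactly the form
(R1)-(R4) of the project plan. -/
theorem exists_specialization_of_red_equiv (p : ℕ) (J : Type) [AddCommGroup J]
    [Module HeckeAlg J] [DistribMulAction (L ≃ₐ[K] L) J] [SMulCommClass (L ≃ₐ[K] L) HeckeAlg J]
    (A : ValuationSubring L) (ℓ : ℕ) (hℓ : ℓ.Prime) (s0 : L ≃ₐ[K] L)
    (hs0 : A.IsFrobeniusAt s0 ℓ)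
    {X : Type*} [AddCommGroup X] (red : J →+ X) (Fb : X ≃+ X)
    (R1 : ∀ σ ∈ A.inertiaSubgroupIn K, ∀ x : J, red (σ • x) = red x)
    (R2 : ∀ x : J, red (s0 • x) = Fb (red x))
    (R3 : ∀ x : J, red (heckeGen ⟨ℓ, hℓ⟩ • x) = Fb (red x) + ℓ • Fb.symm (red x))
    (R4 : ∀ x : J, (∃ n : ℕ, p ^ n • x = 0) → red x = 0 → x = 0) :
    ∃ (J' : Type) (_ : AddCommGroup J') (_ : Module HeckeAlg J') (sp : J →+ J')
      (F : J' →+ J'),
      IsSpecialization (K := K) p J J' A ℓ sp F ∧ SpecialFibreRelation J' ℓ hℓ F := by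
  refine exists_specialization_of_red p J A ℓ hℓ s0 hs0 red Fb.toAddMonoidHom
    (ℓ • Fb.symm.toAddMonoidHom) ?_ R1 R2 ?_ R4
  · intro y
    simp
  · intro x
    rw [R3]
    simp

end Main

end Fermat.Agent.S37.Reduction
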