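/-
Project I (S37), slice I-0, second half: the formal reduction instantiated at `JZero N`.

`result_of_hasReduction` has EXACTLY the shape of the frozen statement S37 plus one extra
hypothesis `∀ ℓ A, HasReduction N p ℓ hℓ A`; the glue file `Fermat/Agent/S37.lean` only has to
supply that hypothesis.  `HasReduction` does not mention the Hecke module structure on `JZero N`
(it speaks about the single operator `heckeOperatorBar N ℓ`), so the other slices never have to
touch `heckeModuleBar`.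
-/
import Fermat.Agent.S37.Reduction
import Fermat.Agent.Lib.FrobeniusExists
import Fermat.Prelude.Def_ModularCurve_HeckeModule

set_option autoImplicit false

namespace Fermat.Agent.S37.ReductionJZero

open ModularCurve Fermat.Agent.S37.Reduction

universe u

/-- The interface the geometric slices (I-1, I-2, I-3) have to deliver for one prime `ℓ` and one
valuation subring `A` of `AlgebraicClosure ℚ` over `ℓ`: an additive group `X` (think
`JZeroC k N`, `k` the residue field of `A`), an additive "reduction" map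
`red : JZero N →+ X` and additive endomorphisms `Fb` ("Frobenius"), `V` ("Verschiebung") of `X`
such that

* `hV` : `V ∘ Fb = ℓ`;
* `R1` : `red` is invariant under the inertia subgroup at `A`;
* `R2` : `red (σ • x) = Fb (red x)` for every (equivalently: one) Frobenius element `σ` at `A`;
* `R3` : `red (T_ℓ x) = Fb (red x) + V (red x)`;
* `R4` : `red` is injective on `p`-power torsion. -/
def HasReduction (N p : ℕ) [NeZero N] (ℓ : ℕ) (hℓ : ℓ.Prime)
    (A : ValuationSubring (AlgebraicClosure ℚ)) : Prop :=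
  ∃ (X : Type u) (_ : AddCommGroup X) (red : JZero N →+ X) (Fb V : X →+ X),
    (∀ y : X, V (Fb y) = ℓ • y) ∧
    (∀ σ ∈ A.inertiaSubgroupIn ℚ, ∀ x : JZero N, red (σ • x) = red x) ∧
    (∀ σ : AlgebraicClosure ℚ ≃ₐ[ℚ] AlgebraicClosure ℚ, A.IsFrobeniusAt σ ℓ →
      ∀ x : JZero N, red (σ • x) = Fb (red x)) ∧
    (∀ x : JZero N, red (heckeOperatorBar N ⟨ℓ, hℓ⟩ x) = Fb (red x) + V (red x)) ∧
    (∀ x : JZero N, (∃ n : ℕ, p ^ n • x = 0) → red x = 0 → x = 0)

/-- Variant of the interface with `Fb` an additive automorphism and `V = ℓ Fb⁻¹`. -/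
theorem hasReduction_of_equiv (N p : ℕ) [NeZero N] (ℓ : ℕ) (hℓ : ℓ.Prime)
    (A : ValuationSubring (AlgebraicClosure ℚ))
    {X : Type u} [AddCommGroup X] (red : JZero N →+ X) (Fb : X ≃+ X)
    (R1 : ∀ σ ∈ A.inertiaSubgroupIn ℚ, ∀ x : JZero N, red (σ • x) = red x)
    (R2 : ∀ σ : AlgebraicClosure ℚ ≃ₐ[ℚ] AlgebraicClosure ℚ, A.IsFrobeniusAt σ ℓ →
      ∀ x : JZero N, red (σ • x) = Fb (red x))
    (R3 : ∀ x : JZero N,
      red (heckeOperatorBar N ⟨ℓ, hℓ⟩ x) = Fb (red x) + ℓ • Fb.symm (red x))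
    (R4 : ∀ x : JZero N, (∃ n : ℕ, p ^ n • x = 0) → red x = 0 → x = 0) :
    HasReduction.{u} N p ℓ hℓ A := by
  refine ⟨X, inferInstance, red, Fb.toAddMonoidHom, ℓ • Fb.symm.toAddMonoidHom, ?_, R1, R2, ?_, R4⟩
  · intro y
    simp
  · intro x
    rw [R3]
    simp

/-- **Slice I-0, final form**: the frozen statement S37 follows from `HasReduction` at every
prime `ℓ ∤ N p` and every valuation subring over `ℓ`. -/
theorem result_of_hasReduction (N p : ℕ) [NeZero N]
    (hcomm : ModularCurve.HeckeOperatorsCommuteBar N)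
    (hred : ∀ ℓ : ℕ, (hℓ : ℓ.Prime) → ¬ ℓ ∣ N * p →
      ∀ A : ValuationSubring (AlgebraicClosure ℚ), A.LiesOverPrime ℓ →
        HasReduction.{u} N p ℓ hℓ A) :
    letI := ModularCurve.heckeModuleBar N
    ∀ (_ : SMulCommClass (AlgebraicClosure ℚ ≃ₐ[ℚ] AlgebraicClosure ℚ) ModularCurve.HeckeAlg
      (ModularCurve.JZero N)),
      ModularCurve.SpecializationExists (K := ℚ) (L := AlgebraicClosure ℚ) N p
        (ModularCurve.JZero N) := by
  letI := ModularCurve.heckeModuleBar N
  intro _ ℓ hℓ hndvd A hA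
  obtain ⟨X, _, red, Fb, V, hV, R1, R2, R3, R4⟩ := hred ℓ hℓ hndvd A hA
  obtain ⟨s0, hs0⟩ :=
    Fermat.Agent.Lib.FrobeniusExists.exists_isFrobeniusAt_algebraicClosure A hℓ hA
  refine exists_specialization_of_red (K := ℚ) p (JZero N) A ℓ hℓ s0 hs0 red Fb V hV R1
    (R2 s0 hs0) ?_ R4
  intro x
  rw [← R3 x]
  congr 1
  exact heckeModuleBar_heckeGen_smul hcomm ⟨ℓ, hℓ⟩ x

end Fermat.Agent.S37.ReductionJZero
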