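/-
Project I (S37), slice I-4: the glue.

`result_of_reductionInputs`: the frozen statement S37 follows from the existence of the reduction
inputs `ReductionInputsModL A N` at every valuation subring `A` of `ℚ̄` over a prime `ℓ ∤ N`
(slice I-1).  Everything else is discharged here:
* (R1), (R2): `Equivariance/PlaceEquiv` (inertia invariance, Frobenius equivariance);
* (R3): `ES/Relation` (Eichler-Shimura relation);
* (R4): `Fermat.Agent.S18.result` (injectivity of the reduction on prime-to-`ℓ` torsion);
* formal part: `ReductionJZero.result_of_hasReduction`, `hasReduction_of_equiv`.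
-/
import Mathlib
import Fermat.Agent.S37.ReductionJZero
import Fermat.Agent.S37.ES.Relation
import Fermat.Agent.S37.Equivariance.PlaceEquiv
import Fermat.Agent.S18

set_option autoImplicit false
set_option linter.style.haveILetI false
set_option synthInstance.maxHeartbeats 400000

namespace Fermat.Agent.S37.Glue

open ModularCurve AlgebraicCurve Fermat.Agent.S37.Equivariance.CoeffAut

/-- The reduction data `HasReduction` at `(ℓ, A)` from the reduction inputs. -/
theorem hasReduction_of_reductionInputs (N p : ℕ) [NeZero N] (ℓ : ℕ) (hℓ : ℓ.Prime)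
    (hndvd : ¬ ℓ ∣ N * p) (A : ValuationSubring (AlgebraicClosure ℚ)) (hA : A.LiesOverPrime ℓ)
    (h : ReductionInputsModL A N) :
    Fermat.Agent.S37.ReductionJZero.HasReduction.{0} N p ℓ hℓ A := by
  haveI : Fact ℓ.Prime := ⟨hℓ⟩
  have hℓN : ¬ ℓ ∣ N := fun h' => hndvd (h'.mul_right p)
  have hℓp : ¬ ℓ ∣ p := fun h' => hndvd (h'.mul_left N)
  haveI := Fermat.Agent.S18.ResidueBasics.charP_residueField A hA
  haveI := Fermat.Agent.S18.ResidueBasics.isAlgClosed_residueField A
  haveI : PerfectField (IsLocalRing.ResidueField A) := inferInstance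
  refine Fermat.Agent.S37.ReductionJZero.hasReduction_of_equiv N p ℓ hℓ A (reductionModL A N)
    (frobPic0 (IsLocalRing.ResidueField A) N ℓ)
    (fun σ hσ x => Fermat.Agent.S37.Equivariance.PlaceEquiv.reductionModL_smul_inertia hA hℓN hσ x)
    (fun σ hσ x =>
      Fermat.Agent.S37.Equivariance.PlaceEquiv.reductionModL_smul_frobenius hA hℓN hσ x)
    (fun x => Fermat.Agent.S37.ES.Relation.reductionModL_hecke_final hℓN h x) ?_
  rintro x ⟨n, hn⟩ hx
  exact Fermat.Agent.S18.result N hℓN A hA h (p ^ n)
    (fun hd => hℓp (hℓ.dvd_of_dvd_pow hd)) x hn hx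

/-- **Slice I-4**: the frozen statement S37 from the reduction inputs (slice I-1). -/
theorem result_of_reductionInputs (N p : ℕ) [NeZero N]
    (hcomm : ModularCurve.HeckeOperatorsCommuteBar N)
    (hI : ∀ ℓ : ℕ, ℓ.Prime → ¬ ℓ ∣ N →
      ∀ A : ValuationSubring (AlgebraicClosure ℚ), A.LiesOverPrime ℓ → ReductionInputsModL A N) :
    letI := ModularCurve.heckeModuleBar N
    ∀ (_ : SMulCommClass (AlgebraicClosure ℚ ≃ₐ[ℚ] AlgebraicClosure ℚ) ModularCurve.HeckeAlg
      (ModularCurve.JZero N)),
      ModularCurve.SpecializationExists (K := ℚ) (L := AlgebraicClosure ℚ) N p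
        (ModularCurve.JZero N) :=
  Fermat.Agent.S37.ReductionJZero.result_of_hasReduction N p hcomm
    fun ℓ hℓ hndvd A hA =>
      hasReduction_of_reductionInputs N p ℓ hℓ hndvd A hA
        (hI ℓ hℓ (fun h' => hndvd (h'.mul_right p)) A hA)

end Fermat.Agent.S37.Glue
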