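import Mathlib
import Fermat.Agent.S37.ReductionInputsX0
import Fermat.Agent.S37.Diff.GenusX0

/-!
# PROJECT I (S37), slice I-1: `ReductionInputsModL A N` for `ℓ ∤ N`

* `reductionInputsModL_of_1728` : unconditional when `1728 ≠ 0` in the residue field;
* `reductionInputsModL_of_ne` : unconditional for `ℓ ≠ 2, 3` (`ℓ ∤ N`);
* `WildGenusLe` : the one remaining input, the inequality of genera in residue characteristic
  `2` and `3`, as a proposition;
* `reductionInputsModL_all_of_wild : WildGenusLe → ∀ N ℓ A, A.LiesOverPrime ℓ → ¬ ℓ ∣ N →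
  ReductionInputsModL A N`, in the shape consumed by the final glue of S37.
-/

set_option autoImplicit false

namespace Fermat.Agent.S37.ReductionInputsAll

open ModularCurve IsLocalRing Fermat.Agent.S18.NonSpecial

local notation "Kb" => AlgebraicClosure ℚ

set_option synthInstance.maxHeartbeats 400000

/-- `ReductionInputsModL A N` when `1728 ≠ 0` in the residue field (`ℓ ∤ N`). -/
theorem reductionInputsModL_of_1728 {ℓ : ℕ} [Fact ℓ.Prime] (N : ℕ) [NeZero N]
    (A : ValuationSubring Kb) (hA : A.LiesOverPrime ℓ) (hℓN : ¬ ℓ ∣ N)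
    (h1728 : (1728 : ResidueField ↥A) ≠ 0) : ReductionInputsModL A N :=
  Fermat.Agent.S37.ReductionInputsX0.reductionInputsModL_X0 N A hA hℓN
    (fun _ _ HL HK => Fermat.Agent.S37.Diff.GenusX0.genus_le_of_1728 hA hℓN h1728 HL HK)

/-- **`ReductionInputsModL A N` for `ℓ ∤ N`, `ℓ ≠ 2, 3`, unconditionally.** -/
theorem reductionInputsModL_of_ne {ℓ : ℕ} [Fact ℓ.Prime] (N : ℕ) [NeZero N]
    (A : ValuationSubring Kb) (hA : A.LiesOverPrime ℓ) (hℓN : ¬ ℓ ∣ N) (h2 : ℓ ≠ 2)
    (h3 : ℓ ≠ 3) : ReductionInputsModL A N :=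
  Fermat.Agent.S37.ReductionInputsX0.reductionInputsModL_X0 N A hA hℓN
    (Fermat.Agent.S37.Diff.GenusX0.genus_le hA hℓN h2 h3)

/-- The remaining input of slice I-1: the inequality of genera `g(F_L) ≤ g(F_k)` for `X₀(N)` in
residue characteristic `2` or `3` (`ℓ ∤ N`). -/
def WildGenusLe : Prop :=
  ∀ (N : ℕ) [NeZero N] (ℓ : ℕ) [Fact ℓ.Prime] (A : ValuationSubring Kb),
    A.LiesOverPrime ℓ → ¬ ℓ ∣ N → (ℓ = 2 ∨ ℓ = 3) →
      ∀ gL gk : ℕ, RiemannHyp Kb ↥(modularFunctionFieldBar N) gL →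
        RiemannHyp (ResidueField ↥A) ↥(modularFunctionFieldFullC (ResidueField ↥A) N) gk →
          gL ≤ gk

/-- **`ReductionInputsModL A N` for every `ℓ ∤ N`**, from the inequality of genera in residue
characteristic `2` and `3`. -/
theorem reductionInputsModL_all_of_wild (hW : WildGenusLe) :
    ∀ (N : ℕ) [NeZero N] (ℓ : ℕ) [Fact ℓ.Prime] (A : ValuationSubring Kb),
      A.LiesOverPrime ℓ → ¬ ℓ ∣ N → ReductionInputsModL A N := by
  intro N _ ℓ _ A hA hℓN
  by_cases h : ℓ = 2 ∨ ℓ = 3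
  · exact Fermat.Agent.S37.ReductionInputsX0.reductionInputsModL_X0 N A hA hℓN
      (hW N ℓ A hA hℓN h)
  · push Not at h
    exact reductionInputsModL_of_ne N A hA hℓN h.1 h.2

end Fermat.Agent.S37.ReductionInputsAll
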