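import Mathlib
import Fermat.Agent.S37.ReductionInputsAll
import Fermat.Agent.S37.Deuring.HypX0
import Fermat.Agent.S37.Wild.K3
import Fermat.Agent.S18.Wire
import Fermat.Agent.S18.B.GenusLe

/-!
# PROJECT I (S37), slice I-1: the genus inequality in residue characteristic `2`, `3` from the
comparison of the numbers of cusps

`WildGenusLe` (the last open input of `ReductionInputsAll.reductionInputsModL_all_of_wild`) follows
from

* `WildK3` : contract `S18.Wire.K3 N A` (lower bound for the different of the supersingular fibre)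
  for every `A` over `ℓ ∈ {2, 3}`, `ℓ ∤ N`, WITHOUT the reduction hypothesis.  This is PROVED here
  (`wildK3`) from `Wild.K3.k3` applied to the Gauss datum `Gauss.Datum.gaussDatum N A hA hℓN`
  (`jIn_gaussDatum` : `j` is Gauss-integral and reduces to `j̄`);
* `CuspCountLe` : `#poles(j̄) ≤ #poles(j)`, the comparison of the numbers of cusps (slice
  I-1b-cusps), the only remaining hypothesis.

The other inputs of `S18.B.GenusIneqDiff.genus_le_X0_of_collision` are on main: Hurwitz's formula
on both sides (`S18.A.Hurwitz.hurwitzFormula`), the equality of degrees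
(`Deuring.HypX0.finrank_eq`) and the separability of `F_k / k(j̄)`
(`S18.B.SeparableFk.isSeparable_jk`).
-/

set_option autoImplicit false
set_option linter.style.haveILetI false

namespace Fermat.Agent.S37.ReductionInputsWild

open ModularCurve IsLocalRing IntermediateField
open Fermat.Agent.S18.A Fermat.Agent.S18.B Fermat.Agent.S18.C Fermat.Agent.S18.NonSpecial
open Fermat.Agent.S37.ReductionInputsAll Fermat.Agent.S37.Gauss

local notation "Kb" => AlgebraicClosure ℚ

set_option synthInstance.maxHeartbeats 400000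

attribute [local instance 2000] Fermat.Agent.S18.C.KModelX0.algkFk

/-- `j` is Gauss-integral and reduces to `j̄`, for the Gauss datum of `X₀(N)` at `ℓ ∤ N`. -/
theorem jIn_gaussDatum {ℓ : ℕ} [Fact ℓ.Prime] (N : ℕ) [NeZero N] (A : ValuationSubring Kb)
    (hA : A.LiesOverPrime ℓ) (hℓN : ¬ ℓ ∣ N) :
    Fermat.Agent.S37.Wild.KModel.JIn (Datum.gaussDatum N A hA hℓN) := by
  have hx : algebraMap (RatFunc Kb) ↥(modularFunctionFieldBar N) RatFunc.X ∈
      (Datum.gaussDatum N A hA hℓN).O := by
    rw [ModularInst.algebraMap_FL_X]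
    exact Datum.jgen_mem_O hA hℓN
  refine ⟨hx, ?_⟩
  rw [ModularInst.algebraMap_Fk_X]
  refine Eq.trans ?_ (Datum.red_jgen hA hℓN)
  congr 1
  exact Subtype.ext (ModularInst.algebraMap_FL_X N)

/-- Contract K3 of block C for every valuation subring over `ℓ ∈ {2, 3}`, `ℓ ∤ N`. -/
def WildK3 : Prop :=
  ∀ (N : ℕ) [NeZero N] (ℓ : ℕ) [Fact ℓ.Prime] (A : ValuationSubring Kb),
    A.LiesOverPrime ℓ → ¬ ℓ ∣ N → (ℓ = 2 ∨ ℓ = 3) → Fermat.Agent.S18.Wire.K3 N A

/-- **Contract K3 without the reduction hypothesis**, for every prime `ℓ ∤ N`. -/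
theorem k3_X0 {ℓ : ℕ} [Fact ℓ.Prime] (N : ℕ) [NeZero N] (A : ValuationSubring Kb)
    (hA : A.LiesOverPrime ℓ) (hℓN : ¬ ℓ ∣ N) : Fermat.Agent.S18.Wire.K3 N A :=
  haveI := jIn_gaussDatum N A hA hℓN
  Fermat.Agent.S37.Wild.K3.k3 N A (Datum.gaussDatum N A hA hℓN) (Datum.red_surjective hA hℓN)
    hℓN hA

theorem wildK3 : WildK3 := fun N _ _ _ A hA hℓN _ => k3_X0 N A hA hℓN

/-- The comparison of the numbers of cusps: `j̄` has at most as many poles as `j`, for every
valuation subring over `ℓ ∈ {2, 3}`, `ℓ ∤ N`. -/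
def CuspCountLe : Prop :=
  ∀ (N : ℕ) [NeZero N] (ℓ : ℕ) [Fact ℓ.Prime] (A : ValuationSubring Kb),
    A.LiesOverPrime ℓ → ¬ ℓ ∣ N → (ℓ = 2 ∨ ℓ = 3) →
      ∀ [IsAlgClosed (ResidueField ↥A)] (hsep : Algebra.IsSeparable
        (ResidueField ↥A)⟮FkBasics.jk (ResidueField ↥A) N⟯
        ↥(modularFunctionFieldFullC (ResidueField ↥A) N)),
        (FibreSep.poles (FkBasics.isFF (ResidueField ↥A) N) hsep).card ≤
          (FibreSep.poles (Instances.isFF_jgen N) (Instances.isSeparable_jgen N)).card

/-- **The genus inequality in residue characteristic `2`, `3`** from contract K3 and the comparison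
of the numbers of cusps. -/
theorem wildGenusLe_of (hK3 : WildK3) (hcp : CuspCountLe) : WildGenusLe := by
  intro N _ ℓ _ A hA hℓN hℓ gL gk HL HK
  haveI : IsAlgClosed (ResidueField ↥A) :=
    Fermat.Agent.S18.ResidueBasics.isAlgClosed_residueField A
  have hsep := SeparableFk.isSeparable_jk (ResidueField ↥A) N
  have hHL := Hurwitz.hurwitzFormula (Instances.isFF_jgen N) (Instances.isSeparable_jgen N) HL
  have hHk := Hurwitz.hurwitzFormula (FkBasics.isFF (ResidueField ↥A) N) hsep HK
  have hn := Fermat.Agent.S37.Deuring.HypX0.finrank_eq hA hℓN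
  have h1728 : (1728 : ResidueField ↥A) = 0 := by
    haveI : CharP (ResidueField ↥A) ℓ := Fermat.Agent.S18.ResidueBasics.charP_residueField A hA
    have h1 : ((1728 : ℕ) : ResidueField ↥A) = 0 := by
      rw [CharP.cast_eq_zero_iff (ResidueField ↥A) ℓ]
      rcases hℓ with rfl | rfl
      · norm_num
      · norm_num
    exact_mod_cast h1
  exact GenusIneqDiff.genus_le_X0_of_collision N hsep hHL hHk hn
    (hK3 N ℓ A hA hℓN hℓ hsep h1728) (hcp N ℓ A hA hℓN hℓ hsep)

/-- **The genus inequality in residue characteristic `2`, `3`** from the comparison of the numbers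
of cusps alone. -/
theorem wildGenusLe_of_cusps (hcp : CuspCountLe) : WildGenusLe :=
  wildGenusLe_of wildK3 hcp

/-- **`ReductionInputsModL A N` for every `ℓ ∤ N`**, from the comparison of the numbers of cusps in
residue characteristic `2` and `3`. -/
theorem reductionInputsModL_all_of_cusps (hcp : CuspCountLe) :
    ∀ (N : ℕ) [NeZero N] (ℓ : ℕ) [Fact ℓ.Prime] (A : ValuationSubring Kb),
      A.LiesOverPrime ℓ → ¬ ℓ ∣ N → ReductionInputsModL A N :=
  reductionInputsModL_all_of_wild (wildGenusLe_of_cusps hcp)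

end Fermat.Agent.S37.ReductionInputsWild
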